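/-
S48, block BB, sub-block KL (architect helper30): the key lemma for the function field of
`±Γ₁(M) ∩ Γ₀(M r)`.  DEFINITIONS AND CONTRACTS.

* `KLF F₀ A n`     : the key lemma for the field `FB F₀` (verbatim `GAL.KL`, with
                     `modularFunctionFieldBar N` replaced by `laurentBaseChange ℚ̄ F₀`);
* `KL1Statement`   : THE DELIVERABLE of the block;
* `HorInput F₀`    : what the block consumes from block U (horizontal input);
* `HasGaussData`, `VertStatement` : the vertical input (sub-block V);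
* `LevelStatement` : the change of level (sub-block L).
-/
import Fermat.Agent.S48.BB.Base
import Fermat.Agent.Lib.Hauptmodul.RamDefs
import Fermat.Agent.GAL.KLInputs.FromBase

set_option autoImplicit false

noncomputable section

namespace Fermat.Agent.S48.BB.KL

open ModularCurve AlgebraicCurve IntermediateField
open Fermat.Agent.S24 Fermat.Agent.S24.FF Fermat.Agent.S18.Vert Fermat.Agent.Lib.Hauptmodul

/-- The key lemma for the field `FB F₀`, the valuation subring `A` of `ℚ̄` and the exponent `n`. -/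
def KLF (F₀ : IntermediateField ℚ (LaurentSeries ℚ)) (A : ValuationSubring Kbar) (n : ℕ) : Prop :=
  ∀ (P Q : LaurentSeries A)
    (hP : coeffMap A.subtype P ∈ laurentBaseChange Kbar F₀)
    (hQ : coeffMap A.subtype Q ∈ laurentBaseChange Kbar F₀),
    coeffMap (IsLocalRing.residue A) P = coeffMap (IsLocalRing.residue A) Q →
    coeffMap (IsLocalRing.residue A) Q ≠ 0 →
    (∀ v : Place Kbar (laurentBaseChange Kbar F₀),
      (n : ℤ) ∣ v.ord ((⟨coeffMap A.subtype P, hP⟩ : laurentBaseChange Kbar F₀) /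
        ⟨coeffMap A.subtype Q, hQ⟩)) →
    ∃ u : laurentBaseChange Kbar F₀,
      (⟨coeffMap A.subtype P, hP⟩ : laurentBaseChange Kbar F₀) / ⟨coeffMap A.subtype Q, hQ⟩ = u ^ n

/-- **The deliverable of the block KL.** -/
def KL1Statement : Prop :=
  ∀ (M : ℕ) [NeZero (M * 1)] (p : ℕ) [Fact p.Prime], ¬ p ∣ M →
    ∀ A : ValuationSubring Kbar, A.LiesOverPrime p →
      ∀ n : ℕ, ¬ p ∣ n → n.Coprime 6 → KLF (F1Q M 1) A n

/-- `j` as an element of `laurentBaseChange L F₀`. -/
def jL (L : Type*) [Field L] [Algebra ℚ L] (F₀ : IntermediateField ℚ (LaurentSeries ℚ))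
    (hj : jq ∈ F₀) : laurentBaseChange L F₀ :=
  ⟨coeffEmb L jq, coeffEmb_mem_laurentBaseChange L hj⟩

/-- **Horizontal input** (deliverable of block U, for `F₀` with `IsLvl F₀ H N`). -/
structure HorInput (F₀ : IntermediateField ℚ (LaurentSeries ℚ)) : Prop where
  j_mem : jq ∈ F₀
  fg : ∃ s : Finset (LaurentSeries ℚ), F₀ = IntermediateField.adjoin ℚ (s : Set (LaurentSeries ℚ))
  ff1 : IsFF1 Kbar (laurentBaseChange Kbar F₀)
  ram : JRam Kbar (jL Kbar F₀ j_mem)

/-- The Gauss valuation ring of `F ⊆ K((q))` satisfies `GoodRed.GaussData` over every base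
coordinate `x` (Gauss integral, with transcendental reduction, `j ∈ K(x)`). -/
def HasGaussData {K : Type*} [Field K] (A : ValuationSubring K) [IsDiscreteValuationRing A]
    (F : IntermediateField K (LaurentSeries K)) (hj : jqModC K ∈ F) (hq : IsQuot A F) : Prop :=
  ∀ x : gaussVal A F hq, Transcendental (IsLocalRing.ResidueField A) (gaussRes hq x) →
    (⟨jqModC K, hj⟩ : F) ∈ K⟮(x : F)⟯ →
    ∀ [Algebra A K⟮(x : F)⟯] [IsScalarTower A K K⟮(x : F)⟯] (π : A), Irreducible π →
      GoodRed.GaussData A π (gaussVal A F hq) (AdjoinSimple.gen K (x : F))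

/-- **Vertical input** (sub-block V): good reduction of `X₁(M) ×_{X₀(M)} X₀(M r)` at `p ∤ M r`, over
a discrete valuation ring containing the `M r`-th roots of unity. -/
def VertStatement : Prop :=
  ∀ (M r p : ℕ) [NeZero (M * r)] [Fact p.Prime], ¬ p ∣ M * r →
    ∀ (K : Type) [Field K] [CharZero K] [Algebra ℚ K] [Algebra K Kbar] (A : ValuationSubring K)
      [IsDiscreteValuationRing A], A.LiesOverPrime p → (∃ ζ : K, IsPrimitiveRoot ζ (M * r)) →
      ∀ hj : jqModC K ∈ laurentBaseChange K (F1Q M r),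
        ∃ hq : IsQuot A (laurentBaseChange K (F1Q M r)),
          HasGaussData A (laurentBaseChange K (F1Q M r)) hj hq

/-- **Change of level** (sub-block L). -/
def LevelStatement : Prop :=
  ∀ (M r : ℕ) [NeZero (M * 1)] [NeZero (M * r)], (r = 2 ∨ r = 3) → ¬ r ∣ M →
    ∀ (A : ValuationSubring Kbar) (n : ℕ), n.Coprime 6 → KLF (F1Q M r) A n → KLF (F1Q M 1) A n

end Fermat.Agent.S48.BB.KL

end
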