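/-
S48, block BB, sub-block KL (chief helper30, deputy helper28).  File owner: helper28.

The horizontal input `HorInput F₀` of the key lemma from `IsLvl F₀ H N` (blocks U, U2).
-/
import Fermat.Agent.S48.BB.KL.Defs
import Fermat.Agent.S48.BB.U2.Ramification

set_option autoImplicit false

noncomputable section

namespace Fermat.Agent.S48.BB.KL

open ModularCurve AlgebraicCurve
open Fermat.Agent.S24 Fermat.Agent.S24.FF Fermat.Agent.Lib.Hauptmodul
open scoped MatrixGroups

variable {F₀ : IntermediateField ℚ (LaurentSeries ℚ)} {H : Subgroup SL(2, ℤ)} {N : ℕ} [NeZero N]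

theorem jL_eq_jB (hL : IsLvl F₀ H N) : jL Kbar F₀ hL.j_mem = U.jB hL := rfl

/-- **The horizontal input** for every field with `IsLvl`. -/
theorem horInput_of_isLvl (hL : IsLvl F₀ H N) : HorInput F₀ where
  j_mem := hL.j_mem
  fg := hL.fg
  ff1 := U.isFF1 hL
  ram := U2.jRam hL

/-- The horizontal inputs for all the fields `F1Q M r`. -/
theorem horInput_F1Q (hLvl : LvlStatement) (M r : ℕ) [NeZero (M * r)] : HorInput (F1Q M r) :=
  horInput_of_isLvl (hLvl M r)

end Fermat.Agent.S48.BB.KL

end
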