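/-
S48, block BB, sub-block KL (chief helper30, deputy helper28).  File owner: helper28.

Change of level for the key lemma `KLF` (norm argument; port of `GAL/KLLevel.lean` of helper267).

* `klf_of_le` : `F₀ ≤ F₀'`, `[FB F₀' : FB F₀] = d` prime to `n` : `KLF F₀' A n → KLF F₀ A n`;
* `levelStatement_of_lvl : LvlStatement → LevelStatement` : the degree of
  `FB (F1Q M r) / FB (F1Q M 1)` is at most `[SL₂(ℤ) : Γ₀(r)] = r + 1 ≤ 4`.
-/
import Fermat.Agent.S48.BB.KL.Defs
import Fermat.Agent.S48.BB.U.Basic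
import Fermat.Agent.GAL.KLLevel

set_option autoImplicit false
set_option linter.unusedSectionVars false
set_option linter.style.haveILetI false

noncomputable section

namespace Fermat.Agent.S48.BB.KL

open ModularCurve AlgebraicCurve IntermediateField CongruenceSubgroup
open Fermat.Agent.S24 Fermat.Agent.GAL
open scoped MatrixGroups

section Generic

variable {F₀ F₀' : IntermediateField ℚ (LaurentSeries ℚ)}

theorem FB_le (hle : F₀ ≤ F₀') : laurentBaseChange Kbar F₀ ≤ laurentBaseChange Kbar F₀' :=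
  IntermediateField.adjoin.mono Kbar _ _ (Set.image_mono hle)

/-- The inclusion `FB F₀ → FB F₀'`. -/
def inclFB (hle : F₀ ≤ F₀') : FB F₀ →ₐ[Kbar] FB F₀' := IntermediateField.inclusion (FB_le hle)

theorem coe_inclFB (hle : F₀ ≤ F₀') (x : FB F₀) :
    ((inclFB hle x : FB F₀') : LaurentSeries Kbar) = x :=
  IntermediateField.coe_inclusion (FB_le hle) x

theorem inclFB_mk (hle : F₀ ≤ F₀') (x : LaurentSeries Kbar) (hx : x ∈ laurentBaseChange Kbar F₀) :
    inclFB hle ⟨x, hx⟩ = ⟨x, FB_le hle hx⟩ :=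
  Subtype.ext (coe_inclFB hle _)

/-- **Change of level** (norm argument). -/
theorem klf_of_le (hle : F₀ ≤ F₀') {A : ValuationSubring Kbar} {n d : ℕ}
    (hdeg : letI := (inclFB hle).toRingHom.toAlgebra
      Module.finrank (FB F₀) (FB F₀') = d)
    (hd : 0 < d) (hcop : Nat.Coprime d n) (hKL : KLF F₀' A n) : KLF F₀ A n := by
  intro P Q hP hQ hPQ hQ0 hdiv
  letI := (inclFB hle).toRingHom.toAlgebra
  have : IsScalarTower Kbar (FB F₀) (FB F₀') :=
    IsScalarTower.of_algebraMap_eq fun a => ((inclFB hle).commutes a).symm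
  have : FiniteDimensional (FB F₀) (FB F₀') :=
    Module.finite_of_finrank_pos (by rw [hdeg]; exact hd)
  set h : FB F₀ := (⟨coeffMap A.subtype P, hP⟩ : laurentBaseChange Kbar F₀) /
    ⟨coeffMap A.subtype Q, hQ⟩ with hh
  have hmap : (⟨coeffMap A.subtype P, FB_le hle hP⟩ : laurentBaseChange Kbar F₀') /
      ⟨coeffMap A.subtype Q, FB_le hle hQ⟩ = algebraMap (FB F₀) (FB F₀') h := by
    rw [hh, map_div₀]
    exact congrArg₂ (· / ·) (inclFB_mk hle _ hP).symm (inclFB_mk hle _ hQ).symm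
  obtain ⟨u, hu⟩ := hKL P Q (FB_le hle hP) (FB_le hle hQ) hPQ hQ0 (by
    intro w
    rw [hmap, Place.ord_restrict]
    exact Dvd.dvd.mul_left (hdiv _) _)
  rw [hmap] at hu
  obtain ⟨s, hs⟩ := exists_pow_finrank_eq_pow h u hu
  rw [hdeg] at hs
  exact exists_eq_pow_of_coprime (a := d) (b := d) (by rwa [Nat.gcd_self]) _ s s hs hs

/-- `[SL₂(ℤ) : H] * [FB F₀' : FB F₀] = [SL₂(ℤ) : H']`. -/
theorem index_mul_finrank (hle : F₀ ≤ F₀') {H H' : Subgroup SL(2, ℤ)} {N N' : ℕ} [NeZero N]
    [NeZero N'] (hL : IsLvl F₀ H N) (hL' : IsLvl F₀' H' N') :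
    letI := (inclFB hle).toRingHom.toAlgebra
    H.index * Module.finrank (FB F₀) (FB F₀') = H'.index := by
  letI := (inclFB hle).toRingHom.toAlgebra
  have : IsScalarTower Kbar (FB F₀) (FB F₀') :=
    IsScalarTower.of_algebraMap_eq fun a => ((inclFB hle).commutes a).symm
  have h2 := finrank_adjoin_mul (K := Kbar) (F := FB F₀) (E := FB F₀') (U.jB hL)
  have h3 : algebraMap (FB F₀) (FB F₀') (U.jB hL) = U.jB hL' := Subtype.ext rfl
  rw [h3, U.finrank_eq_index hL, U.finrank_eq_index hL'] at h2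
  exact h2

end Generic

section Groups

theorem H1_inf_Gamma0_le (M r : ℕ) (hr : Nat.Coprime M r) : H1 M 1 ⊓ Gamma0 r ≤ H1 M r := by
  rintro γ ⟨⟨h1, h2⟩, h3⟩
  refine ⟨h1, ?_⟩
  change γ ∈ Gamma0 (M * 1) at h2
  change γ ∈ Gamma0 r at h3
  change γ ∈ Gamma0 (M * r)
  rw [Gamma0_mem] at h2 h3 ⊢
  rw [mul_one] at h2
  rw [ZMod.intCast_zmod_eq_zero_iff_dvd] at h2 h3 ⊢
  push_cast
  exact IsCoprime.mul_dvd (Nat.isCoprime_iff_coprime.mpr hr) h2 h3

theorem index_Gamma0_le_four {r : ℕ} (hr : r = 2 ∨ r = 3) : (Gamma0 r).index ≤ 4 := by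
  rcases hr with rfl | rfl
  · rw [S20.Combinatorics.index_Gamma0 2 two_ne_zero]
    have := S20.Combinatorics.dedekindPsi_mul_of_not_dvd (N := 1) one_ne_zero Nat.prime_two
      (by norm_num)
    rw [mul_one, dedekindPsi_one] at this
    omega
  · rw [S20.Combinatorics.index_Gamma0 3 three_ne_zero]
    have := S20.Combinatorics.dedekindPsi_mul_of_not_dvd (N := 1) one_ne_zero Nat.prime_three
      (by norm_num)
    rw [mul_one, dedekindPsi_one] at this
    omega

end Groups

theorem F1Q_le (M r : ℕ) [NeZero (M * 1)] [NeZero (M * r)] : F1Q M 1 ≤ F1Q M r :=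
  sup_le_sup_left (full_degeneracy_le (by rw [mul_one]; exact dvd_mul_right M r)) _

theorem coprime_of_le_four {d n : ℕ} (hd : 0 < d) (hd4 : d ≤ 4) (hn : n.Coprime 6) :
    Nat.Coprime d n := by
  have h2 : Nat.Coprime 2 n := (Nat.Coprime.coprime_dvd_right (by norm_num : 2 ∣ 6) hn).symm
  have h3 : Nat.Coprime 3 n := (Nat.Coprime.coprime_dvd_right (by norm_num : 3 ∣ 6) hn).symm
  interval_cases d
  · exact Nat.coprime_one_left n
  · exact h2
  · exact h3
  · exact Nat.Coprime.pow_left 2 h2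

/-- **Sub-block L.** -/
theorem levelStatement_of_lvl (hLvl : LvlStatement) : LevelStatement := by
  intro M r _ _ hr hrM A n hn hKL
  have hL := hLvl M 1
  have hL' := hLvl M r
  have hrp : r.Prime := by
    rcases hr with rfl | rfl
    · exact Nat.prime_two
    · exact Nat.prime_three
  have hcop : Nat.Coprime M r := ((Nat.Prime.coprime_iff_not_dvd hrp).mpr hrM).symm
  have hle := F1Q_le M r
  have hidx := index_mul_finrank hle hL hL'
  have hfi : (H1 M 1).FiniteIndex := U.finiteIndex hL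
  have hfi' : (H1 M r).FiniteIndex := U.finiteIndex hL'
  have hfi0 : (Gamma0 r).FiniteIndex := by
    have : NeZero r := ⟨hrp.ne_zero⟩
    infer_instance
  have ha : 0 < (H1 M 1).index := Nat.pos_of_ne_zero hfi.index_ne_zero
  have ha' : 0 < (H1 M r).index := Nat.pos_of_ne_zero hfi'.index_ne_zero
  -- the bound
  have h1 : (H1 M r).index ≤ (H1 M 1 ⊓ Gamma0 r).index :=
    Nat.le_of_dvd (Nat.pos_of_ne_zero Subgroup.FiniteIndex.index_ne_zero)
      (Subgroup.index_dvd_of_le (H1_inf_Gamma0_le M r hcop))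
  have h2 : (H1 M 1 ⊓ Gamma0 r).index ≤ (H1 M 1).index * (Gamma0 r).index :=
    Subgroup.index_inf_le
  have h3 := index_Gamma0_le_four hr
  refine klf_of_le hle rfl ?_ (coprime_of_le_four ?_ ?_ hn) hKL
  · rcases Nat.eq_zero_or_pos (@Module.finrank (FB (F1Q M 1)) (FB (F1Q M r)) _ _
      (inclFB hle).toRingHom.toAlgebra.toModule) with h0 | h0
    · rw [h0, mul_zero] at hidx
      omega
    · exact h0
  · rcases Nat.eq_zero_or_pos (@Module.finrank (FB (F1Q M 1)) (FB (F1Q M r)) _ _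
      (inclFB hle).toRingHom.toAlgebra.toModule) with h0 | h0
    · rw [h0, mul_zero] at hidx
      omega
    · exact h0
  · have h4 : (H1 M 1).index * @Module.finrank (FB (F1Q M 1)) (FB (F1Q M r)) _ _
        (inclFB hle).toRingHom.toAlgebra.toModule ≤ (H1 M 1).index * 4 := by
      rw [hidx]
      exact h1.trans (h2.trans (Nat.mul_le_mul_left _ h3))
    exact Nat.le_of_mul_le_mul_left h4 ha

end Fermat.Agent.S48.BB.KL

end
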