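/-
S48, block BB, sub-block KL (architect helper30).

Generic wiring (abstract constant field `K`, abstract `F ⊆ K((q))`): `KLGen A₀ F n` from
`HasGaussData`, `GoodRed.inj_main` and the horizontal inputs, for the three base coordinates
`j`, `h₂`, `h₃`.
-/
import Fermat.Agent.S48.BB.KL.Defs
import Fermat.Agent.GAL.KLInputs.Main

set_option autoImplicit false
set_option linter.unusedSectionVars false
set_option linter.style.haveILetI false

noncomputable section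

namespace Fermat.Agent.S48.BB.KL

open ModularCurve AlgebraicCurve Polynomial IntermediateField Fermat.Agent.GoodRed
  Fermat.Agent.S18.Descent Fermat.Agent.S18.Vert Fermat.Agent.S24.FF
  Fermat.Agent.Lib.Hauptmodul Fermat.Agent.GAL.KLInputs

variable {K : Type*} [Field K] [CharZero K] (A₀ : ValuationSubring K)
  [IsDiscreteValuationRing A₀] {ℓ : ℕ} [Fact ℓ.Prime]
  (hℓ : A₀.LiesOverPrime ℓ) (F : IntermediateField K (LaurentSeries K))

include hℓ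

theorem klGen_of_hasGaussData [IsFF1 K F] (hj : jqModC K ∈ F)
    (hq : IsQuot A₀ F) (hV : HasGaussData A₀ F hj hq) (x : gaussVal A₀ F hq)
    (hx : Transcendental (IsLocalRing.ResidueField A₀) (gaussRes hq x))
    (hxK : Transcendental K (x : F))
    (hjx : (⟨jqModC K, hj⟩ : F) ∈ K⟮(x : F)⟯)
    (g₀ g₁ : ℤ[X])
    (hg₀ : Squarefree (g₀.map (Int.castRingHom (IsLocalRing.ResidueField A₀))))
    (hg₁ : Squarefree (g₁.map (Int.castRingHom (IsLocalRing.ResidueField A₀))))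
    (hU₀ : UnramOutsideVS K (x : F) (g₀.map (Int.castRingHom K)))
    (hU₁ : UnramOutsideVS K (x : F)⁻¹ (g₁.map (Int.castRingHom K)))
    (n : ℕ) (hn : ¬ ℓ ∣ n) : KLGen A₀ F n := by
  letI : Algebra A₀ K⟮(x : F)⟯ := ((algebraMap K K⟮(x : F)⟯).comp A₀.subtype).toAlgebra
  haveI : IsScalarTower A₀ K K⟮(x : F)⟯ := IsScalarTower.of_algebraMap_eq fun _ => rfl
  haveI : FiniteDimensional K⟮(x : F)⟯ F := IsFF1.finite _ hxK
  obtain ⟨ϖ, hϖ⟩ := IsDiscreteValuationRing.exists_irreducible A₀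
  have hgen : algebraMap K⟮(x : F)⟯ F (AdjoinSimple.gen K (x : F)) = (x : F) :=
    AdjoinSimple.algebraMap_gen K (x : F)
  have hmapK : ∀ g : ℤ[X], (g.map (Int.castRingHom A₀)).map (algebraMap A₀ K) =
      g.map (Int.castRingHom K) := fun g => by
    rw [Polynomial.map_map]
    congr 1
  have hmapk : ∀ g : ℤ[X], (g.map (Int.castRingHom A₀)).map (IsLocalRing.residue A₀) =
      g.map (Int.castRingHom (IsLocalRing.ResidueField A₀)) := fun g => by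
    rw [Polynomial.map_map]
    congr 1
  have hG : GaussData A₀ ϖ (gaussVal A₀ F hq) (AdjoinSimple.gen K (x : F)) := hV x hx hjx ϖ hϖ
  refine klGen_of_base A₀ F hq (injMain _ _ _ _) (AdjoinSimple.gen K (x : F))
    (transcendental_gen hxK)
    (adjoin_gen_eq_top (x : F)) ϖ hϖ hG (g₀.map (Int.castRingHom A₀))
    (g₁.map (Int.castRingHom A₀)) (by rw [hmapk]; exact hg₀) (by rw [hmapk]; exact hg₁)
    (by rw [hmapK, hgen]; exact hU₀) (by rw [hmapK, hgen]; exact hU₁) n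
    (isUnit_natCast A₀ Fact.out hℓ n hn)

/-- base `j`, `ℓ ≥ 5`. -/
theorem klGenF_j [IsFF1 K F] (hj : jqModC K ∈ F) (hq : IsQuot A₀ F)
    (hV : HasGaussData A₀ F hj hq) (h2 : ℓ ≠ 2) (h3 : ℓ ≠ 3)
    (hU₀ : UnramOutsideVS K (⟨jqModC K, hj⟩ : F) ((gB (-1728)).map (Int.castRingHom K)))
    (hU₁ : UnramOutsideVS K (⟨jqModC K, hj⟩ : F)⁻¹ ((gA (-1728)).map (Int.castRingHom K)))
    (n : ℕ) (hn : ¬ ℓ ∣ n) : KLGen A₀ F n := by
  have hp : ℓ.Prime := Fact.out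
  have h1728 : ¬ (ℓ : ℤ) ∣ (-1728) := by
    rw [Int.dvd_neg]
    intro h
    have h' : ℓ ∣ 2 ^ 6 * 3 ^ 3 := by exact_mod_cast h
    rcases (Nat.Prime.dvd_mul hp).1 h' with h' | h'
    · exact h2 ((Nat.prime_dvd_prime_iff_eq hp Nat.prime_two).1 (hp.dvd_of_dvd_pow h'))
    · exact h3 ((Nat.prime_dvd_prime_iff_eq hp Nat.prime_three).1 (hp.dvd_of_dvd_pow h'))
  refine klGen_of_hasGaussData A₀ hℓ F hj hq hV (baseJ hq hj) (transcendental_baseJ hq hj) ?_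
    (j_mem_adjoin_baseJ hq hj) (gB (-1728)) (gA (-1728))
    (squarefree_gB A₀ hp hℓ _ h1728) (squarefree_gA A₀ hp hℓ _ h1728) ?_ ?_ n hn
  · rw [coe_baseJ]
    exact transcendental_of_coe _ (transcendental_jqModC K)
  · rw [coe_baseJ]; exact hU₀
  · rw [coe_baseJ]; exact hU₁

variable [Algebra ℚ K]

/-- base `h₂`, `ℓ ≠ 2`. -/
theorem klGenF_h2 [IsFF1 K F] (hj : jqModC K ∈ F) (hq : IsQuot A₀ F)
    (hV : HasGaussData A₀ F hj hq) (h2 : ℓ ≠ 2) (hP : toL K h2Z ∈ F)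
    (hU₀ : UnramOutsideVS K (⟨toL K h2Z, hP⟩ : F) ((gA 64).map (Int.castRingHom K)))
    (hU₁ : UnramOutsideVS K (⟨toL K h2Z, hP⟩ : F)⁻¹ ((gB 64).map (Int.castRingHom K)))
    (n : ℕ) (hn : ¬ ℓ ∣ n) : KLGen A₀ F n := by
  have hp : ℓ.Prime := Fact.out
  have h64 : ¬ (ℓ : ℤ) ∣ 64 := by
    intro h
    have h' : ℓ ∣ 2 ^ 6 := by exact_mod_cast h
    exact h2 ((Nat.prime_dvd_prime_iff_eq hp Nat.prime_two).1 (hp.dvd_of_dvd_pow h'))
  refine klGen_of_hasGaussData A₀ hℓ F hj hq hV (baseZ hq h2Z hP)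
    (transcendental_baseZ hq u2Z constantCoeff_u2Z hP) ?_
    (j_mem_adjoin_base2 hq hj hP) (gA 64) (gB 64)
    (squarefree_gA A₀ hp hℓ _ h64) (squarefree_gB A₀ hp hℓ _ h64) ?_ ?_ n hn
  · rw [coe_baseZ]
    exact transcendental_of_coe _ (transcendental_toL_X_mul K u2Z constantCoeff_u2Z)
  · rw [coe_baseZ]; exact hU₀
  · rw [coe_baseZ]; exact hU₁

/-- base `h₃`, `ℓ ≠ 3`. -/
theorem klGenF_h3 [IsFF1 K F] (hj : jqModC K ∈ F) (hq : IsQuot A₀ F)
    (hV : HasGaussData A₀ F hj hq) (h3 : ℓ ≠ 3) (hP : toL K h3Z ∈ F)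
    (hU₀ : UnramOutsideVS K (⟨toL K h3Z, hP⟩ : F) ((gA 27).map (Int.castRingHom K)))
    (hU₁ : UnramOutsideVS K (⟨toL K h3Z, hP⟩ : F)⁻¹ ((gB 27).map (Int.castRingHom K)))
    (n : ℕ) (hn : ¬ ℓ ∣ n) : KLGen A₀ F n := by
  have hp : ℓ.Prime := Fact.out
  have h27 : ¬ (ℓ : ℤ) ∣ 27 := by
    intro h
    have h' : ℓ ∣ 3 ^ 3 := by exact_mod_cast h
    exact h3 ((Nat.prime_dvd_prime_iff_eq hp Nat.prime_three).1 (hp.dvd_of_dvd_pow h'))
  refine klGen_of_hasGaussData A₀ hℓ F hj hq hV (baseZ hq h3Z hP)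
    (transcendental_baseZ hq u3Z constantCoeff_u3Z hP) ?_
    (j_mem_adjoin_base3 hq hj hP) (gA 27) (gB 27)
    (squarefree_gA A₀ hp hℓ _ h27) (squarefree_gB A₀ hp hℓ _ h27) ?_ ?_ n hn
  · rw [coe_baseZ]
    exact transcendental_of_coe _ (transcendental_toL_X_mul K u3Z constantCoeff_u3Z)
  · rw [coe_baseZ]; exact hU₀
  · rw [coe_baseZ]; exact hU₁

end Fermat.Agent.S48.BB.KL

end
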