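/-
S48, block BB, sub-block KL (architect helper30).

`KL1Statement` from the three inputs:
* `HorInput (F1Q M r)` (block U),
* `VertStatement` (sub-block V),
* `LevelStatement` (sub-block L).
-/
import Fermat.Agent.S48.BB.KL.Wire

set_option autoImplicit false
set_option linter.unusedSectionVars false
set_option linter.style.haveILetI false

noncomputable section

namespace Fermat.Agent.S48.BB.KL

open ModularCurve AlgebraicCurve Polynomial IntermediateField
  Fermat.Agent.S18.Descent Fermat.Agent.S18.Vert Fermat.Agent.S24 Fermat.Agent.S24.FF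
  Fermat.Agent.Lib.Hauptmodul Fermat.Agent.GAL.KLInputs

/-! ### Horizontal inputs over a number field -/

section Hor

variable {F₀ : IntermediateField ℚ (LaurentSeries ℚ)} (hor : HorInput F₀)
  (K₀ : IntermediateField ℚ Kbar)

include hor

theorem isFF1_K₀' : IsFF1 K₀ (laurentBaseChange K₀ F₀) := by
  haveI := hor.ff1
  obtain ⟨s, hs⟩ := hor.fg
  exact isFF1_of_baseChange (L' := Kbar) s.finite_toSet hs

theorem jqModC_mem' (L : Type*) [Field L] [Algebra ℚ L] : jqModC L ∈ laurentBaseChange L F₀ := by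
  rw [← GAL.KLInputs.coeffEmb_jq]
  exact coeffEmb_mem_laurentBaseChange L hor.j_mem

theorem jL_eq (L : Type*) [Field L] [Algebra ℚ L] :
    jL L F₀ hor.j_mem = ⟨jqModC L, jqModC_mem' hor L⟩ :=
  Subtype.ext (GAL.KLInputs.coeffEmb_jq)

/-- the good values of `j⁻¹`. -/
theorem ord_jinv (c : Kbar) (h0 : c ≠ 0) (h1 : ((-1728 : ℤ) : Kbar) * c + 1 ≠ 0)
    (v : Place Kbar (laurentBaseChange Kbar F₀))
    (hv : 0 < v.ord ((jL Kbar F₀ hor.j_mem)⁻¹ - algebraMap Kbar _ c)) :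
    v.ord ((jL Kbar F₀ hor.j_mem)⁻¹ - algebraMap Kbar _ c) = 1 := by
  have e := GAL.KLInputs.ord_inv_sub_eq v (jL Kbar F₀ hor.j_mem) c h0 hv
  rw [e] at hv ⊢
  refine hor.ram.generic c⁻¹ (inv_ne_zero h0) ?_ v hv
  intro h
  apply h1
  have : c = 1728⁻¹ := by rw [← h, inv_inv]
  rw [this]
  norm_num

theorem toBar_jK₀ :
    toBar F₀ K₀ (⟨jqModC K₀, jqModC_mem' hor K₀⟩ : laurentBaseChange K₀ F₀) =
      jL Kbar F₀ hor.j_mem := by
  rw [jL_eq hor Kbar]
  exact Subtype.ext (coeffMap_jqModC _)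

theorem transcendental_jK₀ :
    Transcendental K₀ (⟨jqModC K₀, jqModC_mem' hor K₀⟩ : laurentBaseChange K₀ F₀) :=
  transcendental_of_coe _ (transcendental_jqModC K₀)

theorem unram_j_inv :
    UnramOutsideVS K₀ (⟨jqModC K₀, jqModC_mem' hor K₀⟩ : laurentBaseChange K₀ F₀)⁻¹
      ((gA (-1728)).map (Int.castRingHom K₀)) := by
  haveI := hor.ff1
  haveI := isFF1_K₀' hor K₀
  refine unramOutsideVS_gA _ (transcendental_inv (transcendental_jK₀ hor K₀)) (-1728) ?_
  intro c h0 h1 v hv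
  rw [map_inv₀, toBar_jK₀ hor K₀] at hv ⊢
  exact ord_jinv hor c h0 h1 v hv

theorem unram_j :
    UnramOutsideVS K₀ (⟨jqModC K₀, jqModC_mem' hor K₀⟩ : laurentBaseChange K₀ F₀)
      ((gB (-1728)).map (Int.castRingHom K₀)) := by
  haveI := hor.ff1
  haveI := isFF1_K₀' hor K₀
  have h := unramOutsideVS_gB
    (⟨jqModC K₀, jqModC_mem' hor K₀⟩ : laurentBaseChange K₀ F₀)⁻¹
    (transcendental_inv (transcendental_jK₀ hor K₀)) (-1728) (by
      intro c h0 h1 v hv
      rw [map_inv₀, toBar_jK₀ hor K₀] at hv ⊢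
      exact ord_jinv hor c h0 h1 v hv)
  rwa [inv_inv] at h

theorem toL_mem' (L : Type*) [Field L] [Algebra ℚ L] (P : PowerSeries ℤ) (hP : toL ℚ P ∈ F₀) :
    toL L P ∈ laurentBaseChange L F₀ := by
  rw [← coeffEmb_toL]
  exact coeffEmb_mem_laurentBaseChange L hP

theorem toBar_toL (P : PowerSeries ℤ) (hP : toL ℚ P ∈ F₀) :
    toBar F₀ K₀ (⟨toL K₀ P, toL_mem' hor K₀ P hP⟩ : laurentBaseChange K₀ F₀) =
      ⟨toL Kbar P, toL_mem' hor Kbar P hP⟩ :=
  Subtype.ext (coeffMap_toL _ _)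

theorem j_mul_h2 (hP : h2q ∈ F₀) :
    jL Kbar F₀ hor.j_mem * ⟨toL Kbar h2Z, toL_mem' hor Kbar h2Z hP⟩ =
      (1 + 256 * (⟨toL Kbar h2Z, toL_mem' hor Kbar h2Z hP⟩ : laurentBaseChange Kbar F₀)) ^ 3 := by
  rw [jL_eq hor Kbar]
  apply Subtype.ext
  have h := jqModC_mul_h2 Kbar
  push_cast
  exact h

theorem j_mul_h3 (hP : h3q ∈ F₀) :
    jL Kbar F₀ hor.j_mem * ⟨toL Kbar h3Z, toL_mem' hor Kbar h3Z hP⟩ =
      (1 + 27 * (⟨toL Kbar h3Z, toL_mem' hor Kbar h3Z hP⟩ : laurentBaseChange Kbar F₀)) *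
      (1 + 243 * (⟨toL Kbar h3Z, toL_mem' hor Kbar h3Z hP⟩ : laurentBaseChange Kbar F₀)) ^ 3 := by
  rw [jL_eq hor Kbar]
  apply Subtype.ext
  have h := jqModC_mul_h3 Kbar
  push_cast
  exact h

theorem unram_h2 (hP : h2q ∈ F₀) :
    UnramOutsideVS K₀ (⟨toL K₀ h2Z, toL_mem' hor K₀ h2Z hP⟩ : laurentBaseChange K₀ F₀)
      ((gA 64).map (Int.castRingHom K₀)) := by
  haveI := hor.ff1
  haveI := isFF1_K₀' hor K₀
  refine unramOutsideVS_gA _
    (transcendental_of_coe _ (transcendental_toL_X_mul K₀ u2Z constantCoeff_u2Z)) 64 ?_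
  intro c h0 h1 v hv
  rw [toBar_toL hor K₀ h2Z hP] at hv ⊢
  exact ram2_generic hor.ram (j_mul_h2 hor hP) c h0 (by exact_mod_cast h1) v hv

theorem unram_h2_inv (hP : h2q ∈ F₀) :
    UnramOutsideVS K₀ (⟨toL K₀ h2Z, toL_mem' hor K₀ h2Z hP⟩ : laurentBaseChange K₀ F₀)⁻¹
      ((gB 64).map (Int.castRingHom K₀)) := by
  haveI := hor.ff1
  haveI := isFF1_K₀' hor K₀
  refine unramOutsideVS_gB _
    (transcendental_of_coe _ (transcendental_toL_X_mul K₀ u2Z constantCoeff_u2Z)) 64 ?_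
  intro c h0 h1 v hv
  rw [toBar_toL hor K₀ h2Z hP] at hv ⊢
  exact ram2_generic hor.ram (j_mul_h2 hor hP) c h0 (by exact_mod_cast h1) v hv

theorem unram_h3 (hP : h3q ∈ F₀) :
    UnramOutsideVS K₀ (⟨toL K₀ h3Z, toL_mem' hor K₀ h3Z hP⟩ : laurentBaseChange K₀ F₀)
      ((gA 27).map (Int.castRingHom K₀)) := by
  haveI := hor.ff1
  haveI := isFF1_K₀' hor K₀
  refine unramOutsideVS_gA _
    (transcendental_of_coe _ (transcendental_toL_X_mul K₀ u3Z constantCoeff_u3Z)) 27 ?_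
  intro c h0 h1 v hv
  rw [toBar_toL hor K₀ h3Z hP] at hv ⊢
  exact ram3_generic hor.ram (j_mul_h3 hor hP) c h0 (by exact_mod_cast h1) v hv

theorem unram_h3_inv (hP : h3q ∈ F₀) :
    UnramOutsideVS K₀ (⟨toL K₀ h3Z, toL_mem' hor K₀ h3Z hP⟩ : laurentBaseChange K₀ F₀)⁻¹
      ((gB 27).map (Int.castRingHom K₀)) := by
  haveI := hor.ff1
  haveI := isFF1_K₀' hor K₀
  refine unramOutsideVS_gB _
    (transcendental_of_coe _ (transcendental_toL_X_mul K₀ u3Z constantCoeff_u3Z)) 27 ?_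
  intro c h0 h1 v hv
  rw [toBar_toL hor K₀ h3Z hP] at hv ⊢
  exact ram3_generic hor.ram (j_mul_h3 hor hP) c h0 (by exact_mod_cast h1) v hv

end Hor

/-! ### `KL₀` and `KLF` at the levels with a good base coordinate -/

section Good

variable {F₀ : IntermediateField ℚ (LaurentSeries ℚ)} (hor : HorInput F₀)

/-- `KL₀` over a number field, from `HasGaussData`. -/
theorem kl₀_of_hasGaussData (p : ℕ) [Fact p.Prime] (h3 : p = 3 → h2q ∈ F₀) (h2 : p = 2 → h3q ∈ F₀)
    (A : ValuationSubring Kbar) (hA : A.LiesOverPrime p) (n : ℕ) (hn : ¬ p ∣ n)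
    (K₀ : IntermediateField ℚ Kbar) [IsDiscreteValuationRing (restrict A K₀)]
    (hq : IsQuot (restrict A K₀) (laurentBaseChange K₀ F₀))
    (hV : HasGaussData (restrict A K₀) (laurentBaseChange K₀ F₀) (jqModC_mem' hor K₀) hq) :
    KL₀ F₀ A K₀ n := by
  haveI := isFF1_K₀' hor K₀
  have hℓ : (restrict A K₀).LiesOverPrime p := restrict_liesOverPrime K₀ hA
  apply KL₀_of_klGen
  by_cases e3 : p = 3
  · exact klGenF_h2 (restrict A K₀) hℓ _ (jqModC_mem' hor K₀) hq hV (by rw [e3]; decide)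
      (toL_mem' hor K₀ h2Z (h3 e3)) (unram_h2 hor K₀ (h3 e3)) (unram_h2_inv hor K₀ (h3 e3)) n hn
  by_cases e2 : p = 2
  · exact klGenF_h3 (restrict A K₀) hℓ _ (jqModC_mem' hor K₀) hq hV e3
      (toL_mem' hor K₀ h3Z (h2 e2)) (unram_h3 hor K₀ (h2 e2)) (unram_h3_inv hor K₀ (h2 e2)) n hn
  · exact klGenF_j (restrict A K₀) hℓ _ (jqModC_mem' hor K₀) hq hV e2 e3 (unram_j hor K₀)
      (unram_j_inv hor K₀) n hn

end Good

/-- The cyclotomic field `ℚ(ζ_N) ⊆ ℚ̄`. -/
def cyc (N : ℕ) [NeZero N] : IntermediateField ℚ Kbar :=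
  IntermediateField.adjoin ℚ {((B.zetaK N : Kbarˣ) : Kbar)}

instance finiteDimensional_cyc (N : ℕ) [NeZero N] : FiniteDimensional ℚ (cyc N) :=
  IntermediateField.adjoin.finiteDimensional
    ((AlgebraicClosure.isAlgebraic ℚ).isAlgebraic _).isIntegral

theorem exists_primitiveRoot_of_cyc_le (N : ℕ) [NeZero N] {K₀ : IntermediateField ℚ Kbar}
    (h : cyc N ≤ K₀) : ∃ ζ : K₀, IsPrimitiveRoot ζ N := by
  have hmem : ((B.zetaK N : Kbarˣ) : Kbar) ∈ K₀ :=
    h (IntermediateField.mem_adjoin_simple_self ℚ _)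
  refine ⟨⟨_, hmem⟩, ?_⟩
  have h1 : IsPrimitiveRoot ((B.zetaK N : Kbarˣ) : Kbar) N :=
    IsPrimitiveRoot.coe_units_iff.2 (B.isPrimitiveRoot_zetaK N)
  have h2 : IsPrimitiveRoot (algebraMap K₀ Kbar ⟨_, hmem⟩) N := h1
  exact IsPrimitiveRoot.of_map_of_injective (hf := (algebraMap K₀ Kbar).injective) h2

/-- `KLF` at the levels with a good base coordinate. -/
theorem klf_of_good (hV : VertStatement) (M r p : ℕ) [NeZero (M * r)] [Fact p.Prime]
    (hor : HorInput (F1Q M r)) (hp : ¬ p ∣ M * r) (h3 : p = 3 → 2 ∣ M * r)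
    (h2 : p = 2 → 3 ∣ M * r) (A : ValuationSubring Kbar) (hA : A.LiesOverPrime p) (n : ℕ)
    (hn : ¬ p ∣ n) : KLF (F1Q M r) A n := by
  have hpp : p.Prime := Fact.out
  have hn0 : n ≠ 0 := fun h => hn (h ▸ dvd_zero p)
  haveI := hor.ff1
  have hfull : modularFunctionFieldFull (M * r) ≤ F1Q M r := le_sup_right
  intro P Q hP hQ hres hres0 hdvd
  refine KL_of_KL₀' (F1Q M r) A n hn0 (cyc (M * r)) ?_ P Q hP hQ hres hres0 hdvd
  intro K₀ hK₀ hle
  haveI : IsDiscreteValuationRing (restrict A K₀) :=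
    isDiscreteValuationRing_restrict K₀ hpp.ne_zero hA
  obtain ⟨hq, hG⟩ := hV M r p hp K₀ (restrict A K₀) (restrict_liesOverPrime K₀ hA)
    (exists_primitiveRoot_of_cyc_le (M * r) hle) (jqModC_mem' hor K₀)
  exact kl₀_of_hasGaussData hor p
    (fun e => hfull (full_degeneracy_le (h3 e) h2q_mem))
    (fun e => hfull (full_degeneracy_le (h2 e) h3q_mem)) A hA n hn K₀ hq hG

/-- **The key lemma for `X₁(M)`**, from the three inputs. -/
theorem kl1Statement_of_inputs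
    (hU : ∀ (M r : ℕ) [NeZero (M * r)], HorInput (F1Q M r))
    (hV : VertStatement) (hL : LevelStatement) : KL1Statement := by
  intro M _ p _ hpM A hA n hn hn6
  have hpp : p.Prime := Fact.out
  have hM0 : M ≠ 0 := by
    have := NeZero.ne (M * 1)
    rwa [mul_one] at this
  by_cases e3 : p = 3
  · by_cases h2M : 2 ∣ M
    · exact klf_of_good hV M 1 p (hU M 1) (by rwa [mul_one]) (fun _ => by rwa [mul_one])
        (fun e => absurd (e3.symm.trans e) (by decide)) A hA n hn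
    · haveI : NeZero (M * 2) := ⟨mul_ne_zero hM0 two_ne_zero⟩
      refine hL M 2 (Or.inl rfl) h2M A n hn6 ?_
      refine klf_of_good hV M 2 p (hU M 2) ?_ (fun _ => Dvd.intro_left _ rfl)
        (fun e => absurd (e3.symm.trans e) (by decide)) A hA n hn
      intro h
      rcases (Nat.Prime.dvd_mul hpp).1 h with h | h
      · exact hpM h
      · rw [e3] at h; exact absurd h (by decide)
  by_cases e2 : p = 2
  · by_cases h3M : 3 ∣ M
    · exact klf_of_good hV M 1 p (hU M 1) (by rwa [mul_one]) (fun e => absurd e e3)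
        (fun _ => by rwa [mul_one]) A hA n hn
    · haveI : NeZero (M * 3) := ⟨mul_ne_zero hM0 three_ne_zero⟩
      refine hL M 3 (Or.inr rfl) h3M A n hn6 ?_
      refine klf_of_good hV M 3 p (hU M 3) ?_ (fun e => absurd e e3)
        (fun _ => Dvd.intro_left _ rfl) A hA n hn
      intro h
      rcases (Nat.Prime.dvd_mul hpp).1 h with h | h
      · exact hpM h
      · rw [e2] at h; exact absurd h (by decide)
  · exact klf_of_good hV M 1 p (hU M 1) (by rwa [mul_one]) (fun e => absurd e e3)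
      (fun e => absurd e e2) A hA n hn

end Fermat.Agent.S48.BB.KL

end
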