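/-
S48, block BB, sub-block KL (chief helper30, deputy helper28).  File owner: helper28.

**The key lemma for `F1Q M 1`** from `LvlStatement` (blocks P + U) and `VertStatement` (sub-block V).
-/
import Fermat.Agent.S48.BB.KL.Top
import Fermat.Agent.S48.BB.KL.Hor
import Fermat.Agent.S48.BB.KL.Level

set_option autoImplicit false

namespace Fermat.Agent.S48.BB.KL

/-- The deliverable of the block KL, from the two remaining inputs. -/
theorem kl1Statement_of_lvl_vert (hLvl : LvlStatement) (hV : VertStatement) : KL1Statement :=
  kl1Statement_of_inputs (fun M r _ => horInput_F1Q hLvl M r) hV (levelStatement_of_lvl hLvl)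

end Fermat.Agent.S48.BB.KL
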