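/-
S48, block BB, sub-block KL (chief helper30, deputy helper28).  File owner: helper28.

`HasGaussData A F hj hq` for an ARBITRARY field `K(j) ⊆ F ⊆ K((q))` with `IsQuot A F`, from two
properties of the Gauss valuation ring `V = gaussVal A F hq` over the `j`-line only:

* `IntOver hq K(j)` : `V` is integral over `V ∩ K(j)` (i.e. `V` is the only extension);
* there is `y₁ ∈ V` with `Tr_{F/K(j)} y₁ ∉ π V` (the residue extension is separable, `e = 1`).

Clone of `S18/Vert/{AnyBase,GaussData}.lean`, where `F ⊆ K(j, u)` was used only through these two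
properties.
-/
import Fermat.Agent.S48.BB.KL.Defs
import Fermat.Agent.S18.Vert.GaussData

set_option autoImplicit false
set_option linter.unusedSectionVars false
set_option linter.style.haveILetI false

noncomputable section

namespace Fermat.Agent.S48.BB.KL

open ModularCurve Polynomial IntermediateField Fermat.Agent.S18.Vert

/-! ### Abstract lemmas on valuation rings and traces -/

section Abstract

/-- Integrality of a valuation ring over its trace on a subfield passes to bigger subfields. -/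
theorem isIntegralElem_comap_mono {E₀ E F : Type*} [Field E₀] [Field E] [Field F] [Algebra E₀ E]
    [Algebra E F] [Algebra E₀ F] [IsScalarTower E₀ E F] (V : ValuationSubring F) (y : F)
    (h : ((algebraMap E₀ F).comp (V.comap (algebraMap E₀ F)).subtype).IsIntegralElem y) :
    ((algebraMap E F).comp (V.comap (algebraMap E F)).subtype).IsIntegralElem y := by
  obtain ⟨P, hP, hPy⟩ := h
  let θ : V.comap (algebraMap E₀ F) →+* V.comap (algebraMap E F) :=
    ((algebraMap E₀ E).comp (V.comap (algebraMap E₀ F)).subtype).codRestrict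
      (V.comap (algebraMap E F)).toSubring (fun a => by
        change algebraMap E F (algebraMap E₀ E (a : E₀)) ∈ V
        rw [← IsScalarTower.algebraMap_apply]
        exact a.2)
  refine ⟨P.map θ, hP.map θ, ?_⟩
  rw [eval₂_map, ← hPy]
  congr 1
  refine RingHom.ext fun a => ?_
  change algebraMap E F (algebraMap E₀ E (a : E₀)) = algebraMap E₀ F (a : E₀)
  rw [← IsScalarTower.algebraMap_apply]

/-- Nondegeneracy of the trace modulo `ϖ` passes from `F / E₀` to `F / E`, `E₀ ⊆ E ⊆ F`, if the
valuation ring is integral over its trace on `E₀`. -/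
theorem trace_notMem_of_tower {E₀ E F : Type*} [Field E₀] [Field E] [Field F] [Algebra E₀ E]
    [Algebra E F] [Algebra E₀ F] [IsScalarTower E₀ E F] (V : ValuationSubring F) (ϖ : E₀)
    (hϖ : ϖ ≠ 0)
    (hint : ∀ y ∈ V, ((algebraMap E₀ F).comp (V.comap (algebraMap E₀ F)).subtype).IsIntegralElem y)
    (y₁ : F)
    (h : ¬ ∃ w ∈ V, algebraMap E₀ F (Algebra.trace E₀ F y₁) = algebraMap E₀ F ϖ * w) :
    ¬ ∃ w ∈ V, algebraMap E F (Algebra.trace E F y₁) = algebraMap E₀ F ϖ * w := by
  -- `F / E₀` is finite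
  have hfin : FiniteDimensional E₀ F := by
    by_contra hcon
    apply h
    refine ⟨0, V.zero_mem, ?_⟩
    rw [Algebra.trace_eq_zero_of_not_exists_basis E₀ (fun ⟨s, ⟨b⟩⟩ => hcon (Module.Finite.of_basis b))]
    simp
  haveI : FiniteDimensional E₀ E :=
    FiniteDimensional.of_injective (IsScalarTower.toAlgHom E₀ E F).toLinearMap
      (algebraMap E F).injective
  haveI : FiniteDimensional E F := FiniteDimensional.right E₀ E F
  rintro ⟨w, hw, hwt⟩
  apply h
  -- `w` comes from `E`
  set w' : E := (algebraMap E₀ E ϖ)⁻¹ * Algebra.trace E F y₁ with hw'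
  have hϖF : algebraMap E₀ F ϖ ≠ 0 := (_root_.map_ne_zero _).mpr hϖ
  have hϖE : algebraMap E₀ E ϖ ≠ 0 := (_root_.map_ne_zero _).mpr hϖ
  have hww' : algebraMap E F w' = w := by
    rw [hw', map_mul, map_inv₀, ← IsScalarTower.algebraMap_apply, hwt, inv_mul_cancel_left₀ hϖF]
  have htr : Algebra.trace E F y₁ = algebraMap E₀ E ϖ * w' := by
    rw [hw', mul_inv_cancel_left₀ hϖE]
  -- the trace of `w'` is in `V`
  let R₀ := V.comap (algebraMap E₀ F)
  letI : Algebra R₀ E := ((algebraMap E₀ E).comp R₀.subtype).toAlgebra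
  haveI : IsScalarTower R₀ E₀ E := IsScalarTower.of_algebraMap_eq fun _ => rfl
  have hint' : IsIntegral R₀ w' := by
    obtain ⟨P, hP, hPw⟩ := hint w hw
    refine ⟨P, hP, ?_⟩
    apply (algebraMap E F).injective
    rw [hom_eval₂, map_zero, hww', ← hPw]
    congr 1
    refine RingHom.ext fun a => ?_
    change algebraMap E F (algebraMap E₀ E (a : E₀)) = algebraMap E₀ F (a : E₀)
    rw [← IsScalarTower.algebraMap_apply]
  have h2 : IsIntegral R₀ (Algebra.trace E₀ E w') := Algebra.isIntegral_trace hint'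
  obtain ⟨z, hz⟩ := IsIntegrallyClosed.isIntegral_iff.mp h2
  refine ⟨algebraMap E₀ F (Algebra.trace E₀ E w'), ?_, ?_⟩
  · rw [← hz]
    exact z.2
  · rw [← Algebra.trace_trace (S := E), htr, ← map_mul]
    congr 1
    rw [← Algebra.smul_def, map_smul, smul_eq_mul]

end Abstract

variable {K : Type*} [Field K] [CharZero K] {A : ValuationSubring K} [IsDiscreteValuationRing A]
variable {F : IntermediateField K (LaurentSeries K)} (hq : IsQuot A F)

/-- The Gauss valuation ring of `F` is integral over its trace on the subfield `E`. -/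
def IntOver (E : IntermediateField K F) : Prop :=
  ∀ f : gaussVal A F hq,
    ((algebraMap E F).comp ((gaussVal A F hq).comap (algebraMap E F)).subtype).IsIntegralElem (f : F)

/-- The trace form of `F / E` is nondegenerate modulo `π` on the Gauss valuation ring. -/
def TrNondeg (E : IntermediateField K F) (π : A) : Prop :=
  ∃ y₁ ∈ gaussVal A F hq, ¬ ∃ w ∈ gaussVal A F hq,
    algebraMap E F (Algebra.trace E F y₁) = algebraMap K F (π : K) * w

variable {hq}

theorem IntOver.mono {E₀ E : IntermediateField K F} (hle : E₀ ≤ E) (h : IntOver hq E₀) :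
    IntOver hq E := by
  intro f
  letI : Algebra E₀ E := (IntermediateField.inclusion hle).toRingHom.toAlgebra
  haveI : IsScalarTower E₀ E F := IsScalarTower.of_algebraMap_eq fun _ => rfl
  exact isIntegralElem_comap_mono (E₀ := E₀) (E := E) (gaussVal A F hq) (f : F) (h f)

theorem TrNondeg.mono {E₀ E : IntermediateField K F} (hle : E₀ ≤ E) (hint : IntOver hq E₀)
    {π : A} (hπ : π ≠ 0) (h : TrNondeg hq E₀ π) : TrNondeg hq E π := by
  obtain ⟨y₁, hy₁, hy₁'⟩ := h
  letI : Algebra E₀ E := (IntermediateField.inclusion hle).toRingHom.toAlgebra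
  haveI : IsScalarTower E₀ E F := IsScalarTower.of_algebraMap_eq fun _ => rfl
  have hπ0 : algebraMap K E₀ (π : K) ≠ 0 :=
    (_root_.map_ne_zero _).mpr fun h0 => hπ (Subtype.ext h0)
  have e : algebraMap E₀ F (algebraMap K E₀ (π : K)) = algebraMap K F (π : K) :=
    (IsScalarTower.algebraMap_apply K E₀ F _).symm
  refine ⟨y₁, hy₁, ?_⟩
  have := trace_notMem_of_tower (E₀ := E₀) (E := E) (gaussVal A F hq) (algebraMap K E₀ (π : K)) hπ0
    (fun y hy => hint ⟨y, hy⟩) y₁ (by rw [e]; exact hy₁')
  rwa [e] at this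

variable (hq)

/-! ### The integral closure of `A[x]` -/

section Main

variable (x : gaussVal A F hq)
variable (hx : Transcendental (IsLocalRing.ResidueField A) (gaussRes hq x))
variable (HInt : IntOver hq K⟮(x : F)⟯)

open scoped IntermediateField.algebraAdjoinAdjoin in
include hx HInt in
/-- **The integral closure of `A[x]` is `(integral closure of K[x]) ∩ O_w`.** -/
theorem isIntegralElem_evA_iff_of (y : F) :
    (evA A (x : F)).IsIntegralElem y ↔
      IsIntegral (Algebra.adjoin K {(x : F)}) y ∧ y ∈ gaussVal A F hq := by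
  constructor
  · intro h
    refine ⟨isIntegral_adjoin_of_evA _ _ h, ?_⟩
    obtain ⟨P, hP, hPy⟩ := h
    let θ : A[X] →+* gaussVal A F hq :=
      (evA A (x : F)).codRestrict (gaussVal A F hq).toSubring (evA_mem_gaussVal hq x)
    have h1 : IsIntegral (gaussVal A F hq) y :=
      ⟨P.map θ, hP.map θ, by rw [eval₂_map]; exact hPy⟩
    obtain ⟨z, hz⟩ := IsIntegrallyClosed.isIntegral_iff.mp h1
    rw [← hz]; exact z.2
  · rintro ⟨h1, h2⟩
    have hxt : Transcendental K (x : F) := transcendental_of_gaussRes hq x hx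
    have : UniqueFactorizationMonoid (Algebra.adjoin K {(x : F)}) :=
      hxt.uniqueFactorizationMonoid_adjoin
    let _ : Algebra ((gaussVal A F hq).comap (algebraMap K⟮(x : F)⟯ F)) F :=
      ((algebraMap K⟮(x : F)⟯ F).comp
        ((gaussVal A F hq).comap (algebraMap K⟮(x : F)⟯ F)).subtype).toAlgebra
    have : IsScalarTower ((gaussVal A F hq).comap (algebraMap K⟮(x : F)⟯ F)) K⟮(x : F)⟯ F :=
      IsScalarTower.of_algebraMap_eq (fun _ => rfl)
    have h3 : IsIntegral ((gaussVal A F hq).comap (algebraMap K⟮(x : F)⟯ F)) y :=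
      HInt ⟨y, h2⟩
    have hcoef : ∀ i, algebraMap K⟮(x : F)⟯ F ((minpoly K⟮(x : F)⟯ y).coeff i) ∈
        (evA A (x : F)).range := by
      intro i
      obtain ⟨⟨r, hr⟩, ⟨o, ho⟩⟩ := minpoly_coeff_mem_of_two (E := K⟮(x : F)⟯)
        (R₁ := Algebra.adjoin K {(x : F)})
        (R₂ := (gaussVal A F hq).comap (algebraMap K⟮(x : F)⟯ F)) y h1 h3 i
      have hr' : (r : F) = algebraMap K⟮(x : F)⟯ F ((minpoly K⟮(x : F)⟯ y).coeff i) := by
        rw [← hr]; rfl
      have ho' : algebraMap K⟮(x : F)⟯ F ((minpoly K⟮(x : F)⟯ y).coeff i) ∈ gaussVal A F hq := by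
        rw [← ho]; exact o.2
      have hr2 : (r : F) ∈ (aeval (R := K) (x : F)).range := by
        rw [← Algebra.adjoin_singleton_eq_range_aeval]; exact r.2
      obtain ⟨p, hp⟩ := hr2
      have hp' : aeval (x : F) p = (r : F) := hp
      rw [← hr', ← hp'] at ho' ⊢
      obtain ⟨c, hc⟩ := exists_map_subtype_eq A p ((aeval_mem_gaussVal_iff hq x hx p).mp ho')
      exact ⟨c, by rw [evA_eq_aeval, hc]⟩
    have hlift : (minpoly K⟮(x : F)⟯ y).map (algebraMap K⟮(x : F)⟯ F) ∈
        lifts (evA A (x : F)) := by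
      rw [lifts_iff_coeff_lifts]
      intro n
      rw [coeff_map]
      exact hcoef n
    have hyE : IsIntegral K⟮(x : F)⟯ y := h1.tower_top
    obtain ⟨Q, hQ, -, hQm⟩ := lifts_and_natDegree_eq_and_monic hlift ((minpoly.monic hyE).map _)
    refine ⟨Q, hQm, ?_⟩
    rw [← eval_map, hQ, eval_map, ← aeval_def, minpoly.aeval]

open scoped IntermediateField.algebraAdjoinAdjoin in
include hx HInt in
/-- The Gauss ring is the localisation of the integral closure of `A[x]` at the polynomials in `x`
with nonzero reduction. -/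
theorem exists_integral_div_base_of (f : gaussVal A F hq) :
    ∃ (c : A[X]) (b : F), c.map (IsLocalRing.residue A) ≠ 0 ∧
      (evA A (x : F)).IsIntegralElem b ∧ (f : F) * evA A (x : F) c = b := by
  -- `f` is algebraic over `K(x)`, hence over `K[x]`
  have h1 : IsIntegral K⟮(x : F)⟯ (f : F) := by
    obtain ⟨P, hP, hPf⟩ := HInt f
    refine ⟨P.map ((gaussVal A F hq).comap (algebraMap K⟮(x : F)⟯ F)).subtype, hP.map _, ?_⟩
    rw [eval₂_map]
    exact hPf
  have h2 : IsAlgebraic (Algebra.adjoin K {(x : F)}) (f : F) :=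
    (IsFractionRing.isAlgebraic_iff (Algebra.adjoin K {(x : F)}) K⟮(x : F)⟯ F).mpr h1.isAlgebraic
  obtain ⟨r, hr0, hr⟩ := h2.exists_integral_multiple
  have hr2 : (r : F) ∈ (aeval (R := K) (x : F)).range := by
    rw [← Algebra.adjoin_singleton_eq_range_aeval]; exact r.2
  obtain ⟨p, hp⟩ := hr2
  have hp' : aeval (x : F) p = (r : F) := hp
  have hp0 : p ≠ 0 := by
    rintro rfl
    rw [map_zero] at hp'
    exact hr0 (Subtype.ext hp'.symm)
  obtain ⟨a, c, ha, hc, hcr⟩ := exists_smul_primitive (A := A) p hp0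
  refine ⟨c, _, hcr, ?_, rfl⟩
  rw [isIntegralElem_evA_iff_of hq x hx HInt]
  refine ⟨?_, mul_mem f.2 (evA_mem_gaussVal hq x c)⟩
  have h3 : (f : F) * evA A (x : F) c = algebraMap (Algebra.adjoin K {(x : F)}) F
      (algebraMap K (Algebra.adjoin K {(x : F)}) a) * (r • (f : F)) := by
    rw [evA_eq_aeval, hc, map_mul, aeval_C, hp',
      ← IsScalarTower.algebraMap_apply K (Algebra.adjoin K {(x : F)}) F, Algebra.smul_def]
    change _ = _ * ((r : F) * (f : F))
    ring
  rw [h3]
  exact isIntegral_algebraMap.mul hr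

end Main

/-! ### `GaussData` -/

section Data

variable {E : Type*} [Field E] [Algebra K E] [Algebra A E] [IsScalarTower A K E] [Algebra E F]
  [IsScalarTower K E F]

/-- **`GaussData`** from integrality and nondegeneracy of the trace over the base `E = K(x)`. -/
theorem gaussData_of (x : E) (hxO : algebraMap E F x ∈ gaussVal A F hq)
    (hx : Transcendental (IsLocalRing.ResidueField A) (gaussRes hq ⟨algebraMap E F x, hxO⟩))
    (HInt : IntOver hq K⟮algebraMap E F x⟯) {π : A} (hπ : Irreducible π)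
    (HTr : ∃ y₁ ∈ gaussVal A F hq, ¬ ∃ w ∈ gaussVal A F hq,
      algebraMap E F (Algebra.trace E F y₁) = algebraMap K F (π : K) * w) :
    GoodRed.GaussData A π (gaussVal A F hq) x where
  algebraMap_mem a := by
    rw [algebraMap_algebraMap_eq, ← coe_gaussC' hq]
    exact Subtype.mem _
  inv_unif_notMem := by
    rw [algebraMap_algebraMap_eq]
    exact inv_unif_notMem hq hπ
  unif y hy hy' := by
    rw [algebraMap_algebraMap_eq]
    exact exists_eq_unif_mul hq hπ y hy hy'
  gauss p hp := by
    rw [algebraMap_aeval_eq_evA]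
    have h1 := gaussRes_evG_ne_zero hq ⟨algebraMap E F x, hxO⟩ hx p
      (map_residue_ne_zero_of_isPrim hπ hp)
    rw [← isUnit_iff_gaussRes_ne_zero hq] at h1
    have h2 : (evG hq ⟨algebraMap E F x, hxO⟩ p : F) = evA A (algebraMap E F x) p :=
      coe_evG hq _ p
    refine ⟨by rw [← h2]; exact Subtype.mem _, ?_⟩
    obtain ⟨v, hv⟩ := h1
    have h3 : ((v : gaussVal A F hq) : F) * (((v⁻¹ : (gaussVal A F hq)ˣ) : gaussVal A F hq) : F)
        = 1 := congrArg (Subtype.val : gaussVal A F hq → F) (Units.mul_inv v)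
    rw [hv, h2] at h3
    rw [← eq_inv_of_mul_eq_one_right h3]
    exact Subtype.mem _
  integral y hy := by
    obtain ⟨c, b, hc, hb, hyb⟩ := exists_integral_div_base_of hq ⟨algebraMap E F x, hxO⟩ hx HInt
      ⟨y, hy⟩
    refine ⟨c, isPrim_of_map_residue_ne_zero hπ hc, ?_⟩
    rw [GoodRed.IntO, comp_aeval_eq_evA, algebraMap_aeval_eq_evA, mul_comm]
    rw [← hyb] at hb
    exact hb
  sep y hy h := by
    rw [algebraMap_algebraMap_eq] at h ⊢
    by_cases hy' : y⁻¹ ∈ gaussVal A F hq
    · by_cases hy0 : y = 0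
      · exact ⟨0, (gaussVal A F hq).zero_mem, by rw [hy0, mul_zero]⟩
      exfalso
      obtain ⟨y₁, hy₁, hy₁'⟩ := HTr
      apply hy₁'
      obtain ⟨w, hw, hwt⟩ := h (y⁻¹ * y₁) ((gaussVal A F hq).mul_mem _ _ hy' hy₁)
      rw [mul_inv_cancel_left₀ hy0] at hwt
      exact ⟨w, hw, hwt⟩
    · exact exists_eq_unif_mul hq hπ y hy hy'

end Data

/-- **The vertical input from the `j`-line.** -/
theorem hasGaussData_of (hj : jqModC K ∈ F)
    (HInt : IntOver hq K⟮(⟨jqModC K, hj⟩ : F)⟯)
    (HTr : ∀ π : A, Irreducible π → TrNondeg hq K⟮(⟨jqModC K, hj⟩ : F)⟯ π) :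
    HasGaussData A F hj hq := by
  intro x hx hjx _ _ π hπ
  have hle : K⟮(⟨jqModC K, hj⟩ : F)⟯ ≤ K⟮(x : F)⟯ := adjoin_simple_le_iff.mpr hjx
  have hgen : algebraMap K⟮(x : F)⟯ F (AdjoinSimple.gen K (x : F)) = (x : F) :=
    AdjoinSimple.algebraMap_gen K (x : F)
  refine gaussData_of hq (AdjoinSimple.gen K (x : F)) (by rw [hgen]; exact x.2) ?_ ?_ hπ
    ((HTr π hπ).mono hle HInt hπ.ne_zero)
  · convert hx using 2
    exact Subtype.ext hgen
  · rw [hgen]
    exact HInt.mono hle

end Fermat.Agent.S48.BB.KL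

end
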